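import Mathlib
import Fermat.Agent.S23.ConjAssembly
import Fermat.Agent.S23.LevelOneConj

/-!
# DS-B / leaf B1 (prefix `dsb_`): the S23 conjugation method for ANY level and ANY weight

Generic port of the tail of the S23 library (`IQ.monic_slash`,
`exists_cuspForm_of_monic_relation_fun`, `exists_cuspForm_conj`,
`exists_conj_of_levelOne_of_primitive`), which is stated there for `(Γ₀(N), weight 2)` only:

`dsb_exists_conj`: let `Γ ≤ SL(2,ℤ)` be of finite index with `1 ∈ strictPeriods`, let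
`A ∈ M_l(Γ)` have a `σ`-fixed `q`-expansion and pairwise distinct `SL(2,ℤ)`-translates, and assume
that level-one forms can be conjugated.  Then every `f ∈ S_k(Γ)` has a `σ`-conjugate in `S_k(Γ)`.
-/

set_option autoImplicit false

open UpperHalfPlane ModularForm Filter Topology Complex Set Function Finset SlashInvariantForm
open scoped MatrixGroups Manifold

namespace Fermat.Agent.DS

open Fermat.Agent.S23 Fermat.Agent.S23.Asm

/-- `Γ` as a subgroup of `GL₂(ℝ)`. -/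
abbrev dsb_G (Γ : Subgroup SL(2, ℤ)) : Subgroup (GL (Fin 2) ℝ) :=
  Subgroup.map (Matrix.SpecialLinearGroup.mapGL ℝ) Γ

/-- The monic relation is inherited by slashes with elements of `SL(2, ℤ)` (any weight). -/
theorem dsb_monic_slash {k : ℤ} {F : ℍ → ℂ} {d : ℕ} {c : ℕ → ℍ → ℂ}
    (hc_inv : ∀ (j : ℕ) (γ : SL(2, ℤ)), c j ∣[(k * (j : ℤ))] γ = c j)
    (hP : ∀ τ, F τ ^ d + ∑ j ∈ Finset.range d, c (j + 1) τ * F τ ^ (d - 1 - j) = 0)
    (γ : SL(2, ℤ)) (τ : ℍ) :
    (F ∣[k] γ) τ ^ d +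
      ∑ j ∈ Finset.range d, c (j + 1) τ * (F ∣[k] γ) τ ^ (d - 1 - j) = 0 := by
  have hD : denom γ τ ≠ 0 := denom_ne_zero γ τ
  set D := denom γ τ with hDdef
  have hF : (F ∣[k] γ) τ = F (γ • τ) * D ^ (-k) := by
    rw [SL_slash_apply]
  have hcj : ∀ j : ℕ, c j (γ • τ) = c j τ * D ^ (k * (j : ℤ)) := by
    intro j
    have h1 := congrFun (hc_inv j γ) τ
    rw [SL_slash_apply] at h1
    have h2 : D ^ (-(k * (j : ℤ))) * D ^ (k * (j : ℤ)) = 1 := by
      rw [zpow_neg]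
      exact inv_mul_cancel₀ (zpow_ne_zero _ hD)
    calc c j (γ • τ) = c j (γ • τ) * (D ^ (-(k * (j : ℤ))) * D ^ (k * (j : ℤ))) := by
          rw [h2, mul_one]
      _ = (c j (γ • τ) * D ^ (-(k * (j : ℤ)))) * D ^ (k * (j : ℤ)) := by ring
      _ = c j τ * D ^ (k * (j : ℤ)) := by rw [h1]
  have h := hP (γ • τ)
  have hy : F (γ • τ) = (F ∣[k] γ) τ * D ^ k := by
    rw [hF, mul_assoc, zpow_neg, inv_mul_cancel₀ (zpow_ne_zero _ hD), mul_one]
  set y := (F ∣[k] γ) τ with hydef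
  rw [hy] at h
  have hpow : ∀ m : ℕ, (D ^ k) ^ m = D ^ (k * (m : ℤ)) := fun m => by
    rw [← zpow_natCast, ← zpow_mul]
  have key : (y * D ^ k) ^ d + ∑ j ∈ Finset.range d, c (j + 1) (γ • τ) * (y * D ^ k) ^ (d - 1 - j)
      = D ^ (k * (d : ℤ)) *
        (y ^ d + ∑ j ∈ Finset.range d, c (j + 1) τ * y ^ (d - 1 - j)) := by
    rw [mul_add, Finset.mul_sum]
    congr 1
    · rw [mul_pow, hpow]; ring
    · refine Finset.sum_congr rfl fun j hj => ?_
      have hj' : j < d := Finset.mem_range.1 hj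
      rw [hcj (j + 1), mul_pow, hpow]
      have : D ^ (k * (d : ℤ)) =
          D ^ (k * ((j + 1 : ℕ) : ℤ)) * D ^ (k * ((d - 1 - j : ℕ) : ℤ)) := by
        rw [← zpow_add₀ hD]
        congr 1
        have : ((d - 1 - j : ℕ) : ℤ) = (d : ℤ) - 1 - j := by omega
        rw [this]; push_cast; ring
      rw [this]
      ring
  rw [key] at h
  rcases mul_eq_zero.1 h with h0 | h0
  · exact absurd h0 (zpow_ne_zero _ hD)
  · exact h0

variable {Γ : Subgroup SL(2, ℤ)} [Γ.FiniteIndex]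

/-- Function-level integral quotient, any level and weight: `num / den` satisfying a monic
equation with level-one cusp-form coefficients is a cusp form of weight `k` on `Γ`. -/
theorem dsb_exists_cuspForm_of_monic_relation_fun {k w : ℤ} {num den : ℍ → ℂ}
    (hnumM : MDiff num) (hdenM : MDiff den)
    (hnum_inv : ∀ γ ∈ Γ, num ∣[(k + w : ℤ)] γ = num)
    (hden_inv : ∀ γ ∈ Γ, den ∣[w] γ = den)
    (hne : ∃ τ, den τ ≠ 0)
    {d : ℕ} (hd : 0 < d) {c : ℕ → ℍ → ℂ} (hc_holo : ∀ j, MDiff (c j))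
    (hc_inv : ∀ (j : ℕ) (γ : SL(2, ℤ)), c j ∣[(k * (j : ℤ))] γ = c j)
    (hc_zero : ∀ j, 1 ≤ j → IsZeroAtImInfty (c j))
    (hrel : ∀ z : ℍ, num z ^ d +
      ∑ j ∈ Finset.range d, c (j + 1) z * num z ^ (d - 1 - j) * den z ^ (j + 1) = 0) :
    ∃ F : CuspForm (dsb_G Γ) k, ∀ z, F z * den z = num z := by
  obtain ⟨F, hF, hFmul⟩ := IQ.exists_mdiff_quotient hnumM hdenM hne hd hc_holo hrel
  have hP := IQ.monic_of_quotient hdenM hF hne hc_holo hFmul hrel
  have hinv : ∀ γ ∈ Γ, F ∣[k] γ = F := by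
    intro γ hγ
    have hmul : F * den = num := funext hFmul
    have h1 : (F ∣[k] γ) * den = num := by
      rw [← hnum_inv γ hγ, ← hmul, mul_slash_SL2, hden_inv γ hγ]
    have h2 : den * (F ∣[k] γ - F) = 0 := by
      rw [mul_sub, mul_comm, h1, mul_comm, hmul, sub_self]
    have hFs : MDiff (F ∣[k] γ) := hF.slash k _
    rcases (UpperHalfPlane.mul_eq_zero_iff hdenM (hFs.sub hF)).1 h2 with h | h
    · obtain ⟨τ₀, hτ₀⟩ := hne
      exact absurd (congrFun h τ₀) hτ₀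
    · exact sub_eq_zero.1 h
  refine ⟨{ toFun := F, slash_action_eq' := ?_, holo' := hF, zero_at_cusps' := ?_ }, hFmul⟩
  · rintro γ ⟨γ', hγ', rfl⟩
    exact hinv γ' hγ'
  · intro c' hc'
    have hc'' := (Subgroup.IsArithmetic.isCusp_iff_isCusp_SL2Z _).1 hc'
    rw [OnePoint.isZeroAt_iff_forall_SL2Z hc'']
    intro γ _
    exact IQ.isZeroAtImInfty_of_monic hd hc_zero (dsb_monic_slash hc_inv hP γ)

/-- **Abstract assembly, any level and weight** (generic twin of `exists_cuspForm_conj`). -/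
theorem dsb_exists_cuspForm_conj (h1 : (1 : ℝ) ∈ (dsb_G Γ).strictPeriods) (σ : ℂ →+* ℂ)
    {k : ℤ} (f : CuspForm (dsb_G Γ) k)
    {l : ℤ} {T : Type*} [FunLike T ℍ ℂ] [ModularFormClass T (dsb_G Γ) l] (A : T)
    (hAσ : (qExpansion 1 A).map σ = qExpansion 1 A)
    {μ : ℕ} (hμ : 0 < μ) {e e' L L' D D' : ℕ → ℍ → ℂ}
    (he : ∀ j : ℕ, LevelOneFun (k * (j : ℤ)) (e j))
    (he' : ∀ j : ℕ, LevelOneFun (k * (j : ℤ)) (e' j))
    (he'0 : ∀ j, 1 ≤ j → IsZeroAtImInfty (e' j))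
    (hL : ∀ s : ℕ, LevelOneFun (k + l * (s : ℤ)) (L s))
    (hL' : ∀ s : ℕ, LevelOneFun (k + l * (s : ℤ)) (L' s))
    (hD : ∀ s : ℕ, LevelOneFun (0 + l * (s : ℤ)) (D s))
    (hD' : ∀ s : ℕ, LevelOneFun (0 + l * (s : ℤ)) (D' s))
    (hσe : ∀ j, qExpansion 1 (e' j) = (qExpansion 1 (e j)).map σ)
    (hσL : ∀ s, qExpansion 1 (L' s) = (qExpansion 1 (L s)).map σ)
    (hσD : ∀ s, qExpansion 1 (D' s) = (qExpansion 1 (D s)).map σ)
    (hmonic : ∀ z, f z ^ μ + ∑ j ∈ range μ, e (j + 1) z * f z ^ (μ - 1 - j) = 0)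
    (hlag : ∀ z, f z * ∑ s ∈ range μ, D s z * A z ^ (μ - 1 - s) =
      ∑ s ∈ range μ, L s z * A z ^ (μ - 1 - s))
    (hden : ∃ z, ∑ s ∈ range μ, D s z * A z ^ (μ - 1 - s) ≠ 0) :
    ∃ g : CuspForm (dsb_G Γ) k, qExpansion 1 g = (qExpansion 1 f).map σ := by
  have hAq : IsQFun (A : ℍ → ℂ) := IsQFun.of_modularForm h1 A
  have hfq : IsQFun (f : ℍ → ℂ) := IsQFun.of_modularForm h1 f
  set num := Asm.polyA μ A L with hnum
  set den := Asm.polyA μ A D with hden_def
  set num' := Asm.polyA μ A L' with hnum'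
  set den' := Asm.polyA μ A D' with hden'
  have hnumq : IsQFun num := Asm.polyA_isQFun hAq fun s => (hL s).isQFun
  have hdenq : IsQFun den := Asm.polyA_isQFun hAq fun s => (hD s).isQFun
  have hnumq' : IsQFun num' := Asm.polyA_isQFun hAq fun s => (hL' s).isQFun
  have hdenq' : IsQFun den' := Asm.polyA_isQFun hAq fun s => (hD' s).isQFun
  have hσnum : qExpansion 1 num' = (qExpansion 1 num).map σ :=
    Asm.qExpansion_polyA_map hAq hAσ (fun s => (hL s).isQFun) (fun s => (hL' s).isQFun) hσL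
  have hσden : qExpansion 1 den' = (qExpansion 1 den).map σ :=
    Asm.qExpansion_polyA_map hAq hAσ (fun s => (hD s).isQFun) (fun s => (hD' s).isQFun) hσD
  have hfd : (f : ℍ → ℂ) * den = num := by
    ext z
    simp only [Pi.mul_apply, hnum, hden_def, Asm.polyA_apply]
    exact hlag z
  have hden0 : den ≠ 0 := by
    obtain ⟨z, hz⟩ := hden
    intro h
    apply hz
    have := congrFun h z
    simpa [hden_def, Asm.polyA_apply] using this
  have hqden0 : (qExpansion 1 den).map σ ≠ 0 := by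
    rw [Ne, Asm.map_eq_zero_iff]
    exact hdenq.qExpansion_ne_zero hden0
  have hden'0 : ∃ τ, den' τ ≠ 0 := by
    by_contra h
    push Not at h
    have : den' = 0 := funext h
    rw [this, qExpansion_zero] at hσden
    exact hqden0 hσden.symm
  have hR : Asm.relFun μ num den e = 0 := by
    ext z
    rw [Asm.relFun_apply, ← hfd]
    simp only [Pi.mul_apply, Pi.zero_apply]
    have hm := hmonic z
    have : (f z * den z) ^ μ +
        ∑ j ∈ range μ, e (j + 1) z * (f z * den z) ^ (μ - 1 - j) * den z ^ (j + 1) =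
        den z ^ μ * (f z ^ μ + ∑ j ∈ range μ, e (j + 1) z * f z ^ (μ - 1 - j)) := by
      rw [mul_add, Finset.mul_sum, mul_pow]
      congr 1
      · ring
      · refine Finset.sum_congr rfl fun j hj => ?_
        have hj' : j < μ := Finset.mem_range.1 hj
        have : den z ^ μ = den z ^ (μ - 1 - j) * den z ^ (j + 1) := by
          rw [← pow_add]; congr 1; omega
        rw [this, mul_pow]
        ring
    rw [this, hm, mul_zero]
  have hR' : Asm.relFun μ num' den' e' = 0 := by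
    refine (Asm.relFun_isQFun hnumq' hdenq' fun j => (he' j).isQFun).eq_zero_of_qExpansion_eq_zero ?_
    rw [Asm.qExpansion_relFun_map hnumq hdenq (fun j => (he j).isQFun) hnumq' hdenq'
      (fun j => (he' j).isQFun) hσnum hσden hσe, hR, qExpansion_zero, map_zero]
  have hrel' : ∀ z : ℍ, num' z ^ μ +
      ∑ j ∈ Finset.range μ, e' (j + 1) z * num' z ^ (μ - 1 - j) * den' z ^ (j + 1) = 0 := by
    intro z
    have := congrFun hR' z
    rwa [Asm.relFun_apply] at this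
  have hAinv : ∀ γ ∈ Γ, (A : ℍ → ℂ) ∣[l] γ = A := fun γ hγ =>
    SlashInvariantForm.slash_action_eqn A _ (Subgroup.mem_map_of_mem _ hγ)
  have hnum_inv : ∀ γ ∈ Γ, num' ∣[(k + l * ((μ : ℤ) - 1) : ℤ)] γ = num' := fun γ hγ =>
    Asm.polyA_slash γ (hAinv γ hγ) fun s => (hL' s).inv γ
  have hden_inv : ∀ γ ∈ Γ, den' ∣[(l * ((μ : ℤ) - 1) : ℤ)] γ = den' := fun γ hγ => by
    have := Asm.polyA_slash (t := 0) (μ := μ) γ (hAinv γ hγ) fun s => (hD' s).inv γ
    rwa [zero_add] at this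
  obtain ⟨g, hg⟩ := dsb_exists_cuspForm_of_monic_relation_fun (Γ := Γ) hnumq'.holo hdenq'.holo
    hnum_inv hden_inv hden'0 hμ (fun j => (he' j).holo) (fun j γ => (he' j).inv γ) he'0 hrel'
  refine ⟨g, ?_⟩
  have hgq : IsQFun (g : ℍ → ℂ) := IsQFun.of_modularForm h1 g
  have hgd : (g : ℍ → ℂ) * den' = num' := funext hg
  have e1 : qExpansion 1 g * qExpansion 1 den' = (qExpansion 1 f).map σ * qExpansion 1 den' := by
    rw [← hgq.qExpansion_mul hdenq', hgd, hσnum, ← hfd, hfq.qExpansion_mul hdenq, map_mul, hσden]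
  have hq0 : qExpansion 1 den' ≠ 0 := by rw [hσden]; exact hqden0
  exact mul_right_cancel₀ hq0 e1

local notation "𝒬" => 𝒮ℒ ⧸ (Subgroup.subgroupOf (dsb_G Γ) 𝒮ℒ)

/-- **The S23 conjugation theorem for any level and weight**, relative to conjugation of
level-one forms and a primitive element `A` with `σ`-fixed `q`-expansion and pairwise distinct
`SL(2,ℤ)`-translates. -/
theorem dsb_exists_conj_of_primitive (h1 : (1 : ℝ) ∈ (dsb_G Γ).strictPeriods)
    (hL1 : ∀ (σ : ℂ →+* ℂ) (k : ℤ) (F : ModularForm 𝒮ℒ k),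
      ∃ F' : ModularForm 𝒮ℒ k, qExpansion 1 F' = (qExpansion 1 F).map σ)
    {l : ℤ} {T : Type*} [FunLike T ℍ ℂ] [ModularFormClass T (dsb_G Γ) l] (A : T)
    (hAσ : ∀ σ : ℂ →+* ℂ, (qExpansion 1 A).map σ = qExpansion 1 A)
    (hAdist : ∀ q : 𝒬, quotientFunc A q = ⇑A → q = ((1 : 𝒮ℒ) : 𝒬))
    (σ : ℂ →+* ℂ) {k : ℤ} (f : CuspForm (dsb_G Γ) k) :
    ∃ g : CuspForm (dsb_G Γ) k, qExpansion 1 g = (qExpansion 1 f).map σ := by
  classical
  let _ : Fintype 𝒬 := Fintype.ofFinite 𝒬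
  set μ := Nat.card 𝒬 with hμdef
  have hμ : 0 < μ := Nat.card_pos
  let E : ∀ j : ℕ, ModularForm 𝒮ℒ (k * (j : ℤ)) := fun j => ((-1 : ℂ) ^ j) • esymmForm f j
  let Lf : ∀ s : ℕ, ModularForm 𝒮ℒ (k + l * (s : ℤ)) := fun s =>
    ((-1 : ℂ) ^ s) • lagrangeForm f A s
  let Df : ∀ s : ℕ, ModularForm 𝒮ℒ (0 + l * (s : ℤ)) := fun s =>
    ((-1 : ℂ) ^ s) • lagrangeForm (1 : ModularForm (dsb_G Γ) 0) A s
  choose E' hE' using fun j => hL1 σ _ (E j)
  choose Lf' hLf' using fun s => hL1 σ _ (Lf s)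
  choose Df' hDf' using fun s => hL1 σ _ (Df s)
  have hEapp : ∀ j z, E j z = (-1 : ℂ) ^ j * esymmFun f j z := fun j z => by
    simp [E]
  have hLapp : ∀ s z, Lf s z = (-1 : ℂ) ^ s * lagrangeFun f A s z := fun s z => by
    simp [Lf]
  have hDapp : ∀ s z, Df s z = (-1 : ℂ) ^ s * lagrangeFun (1 : ModularForm (dsb_G Γ) 0) A s z :=
    fun s z => by simp [Df]
  refine dsb_exists_cuspForm_conj (Γ := Γ) h1 σ f A (hAσ σ) hμ
    (e := fun j => E j) (e' := fun j => E' j) (L := fun s => Lf s) (L' := fun s => Lf' s)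
    (D := fun s => Df s) (D' := fun s => Df' s)
    (fun j => LevelOneFun.of_modularForm (E j)) (fun j => LevelOneFun.of_modularForm (E' j))
    ?_ (fun s => LevelOneFun.of_modularForm (Lf s)) (fun s => LevelOneFun.of_modularForm (Lf' s))
    (fun s => LevelOneFun.of_modularForm (Df s)) (fun s => LevelOneFun.of_modularForm (Df' s))
    hE' hLf' hDf' ?_ ?_ ?_
  · intro j hj
    refine isZeroAtImInfty_of_coeff_zero (E' j) ?_
    rw [hE' j, PowerSeries.coeff_map]
    have : IsZeroAtImInfty (E j) := by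
      have h0 := esymmFun_isZeroAtImInfty f hj
      have : (E j : ℍ → ℂ) = ((-1 : ℂ) ^ j) • esymmFun f j := by
        ext z; simp [hEapp]
      rw [this]
      exact h0.smul _
    rw [coeff_zero_of_isZeroAtImInfty (E j) this, map_zero]
  · intro z
    have h := esymm_root f z
    rw [Finset.sum_range_succ'] at h
    simp only [pow_zero, one_mul, esymmFun_zero, Pi.one_apply, Nat.sub_zero] at h
    rw [add_comm] at h
    rw [← h]
    congr 1
    refine Finset.sum_congr rfl fun j _ => ?_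
    rw [hEapp]
    congr 2
    change μ - 1 - j = μ - (j + 1)
    omega
  · intro z
    have h1' := lagrange_identity f A z
    have h2 := lagrange_identity_one (𝒢 := dsb_G Γ) A z
    have e1 : ∑ s ∈ range μ, Df s z * A z ^ (μ - 1 - s) =
        ∏ q ∈ (univ : Finset 𝒬).erase ((1 : 𝒮ℒ) : 𝒬), (A z - quotientFunc A q z) := by
      rw [← h2]
      exact Finset.sum_congr rfl fun s _ => by rw [hDapp]
    have e2 : ∑ s ∈ range μ, Lf s z * A z ^ (μ - 1 - s) =
        f z * ∏ q ∈ (univ : Finset 𝒬).erase ((1 : 𝒮ℒ) : 𝒬), (A z - quotientFunc A q z) := by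
      rw [← h1']
      exact Finset.sum_congr rfl fun s _ => by rw [hLapp]
    rw [e1, e2]
  · have h := lagrange_den_ne_zero A hAdist
    by_contra hcon
    push Not at hcon
    apply h
    ext z
    have h2 := lagrange_identity_one (𝒢 := dsb_G Γ) A z
    rw [Pi.zero_apply, ← h2, ← hcon z]
    exact Finset.sum_congr rfl fun s _ => by rw [hDapp]

/-- **Conjugation in `S_k(Γ)`** from a primitive element (level-one conjugation plugged in). -/
theorem dsb_exists_conj (h1 : (1 : ℝ) ∈ (dsb_G Γ).strictPeriods)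
    {l : ℤ} {T : Type*} [FunLike T ℍ ℂ] [ModularFormClass T (dsb_G Γ) l] (A : T)
    (hAσ : ∀ σ : ℂ →+* ℂ, (qExpansion 1 A).map σ = qExpansion 1 A)
    (hAdist : ∀ q : 𝒬, quotientFunc A q = ⇑A → q = ((1 : 𝒮ℒ) : 𝒬))
    (σ : ℂ →+* ℂ) {k : ℤ} (f : CuspForm (dsb_G Γ) k) :
    ∃ g : CuspForm (dsb_G Γ) k, qExpansion 1 g = (qExpansion 1 f).map σ :=
  dsb_exists_conj_of_primitive h1 (fun σ _ F => exists_conj_levelOne σ F) A hAσ hAdist σ f

end Fermat.Agent.DS
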